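import Fermat.Agent.Ribet.Spec
import Fermat.Agent.Lib.Cheb.Spec

/-!
# Row RIBET, pieces R3' and G2 (helper163): conditional (`_of`) forms

* `almostAllToWitness_of` : `Spec.AlmostAllToWitnessStatement` from
  frozen S42 (`Spec.S42Statement`), the trace formula (`Spec.TraceFormulaStatement`),
  qualitative Chebotarev (`Lib.Cheb.Spec.ChebotarevStatement`, unconditional on main as
  `Fermat.Agent.Lib.Cheb.chebotarev`) and existence of Frobenius elements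
  (`Spec.PlacesStatement`).
* `modelTransport_of` : `Spec.ModelTransportStatement` from the same four inputs.

Proof of R3'.  S42 attaches to `(g, 𝔪)` a representation `ρ` over a field `K ⊇ 𝔽_p` with
`tr ρ(Frob_ℓ) = ψ(a_ℓ(g))`, where `ker ψ = 𝔪`, such that `ρ` and `E[p]` both factor through
`Gal(F/ℚ)` for one finite Galois `F`.  Given a good prime `ℓ₀ ∤ M p` and a Frobenius `τ₀` at
`ℓ₀`, Chebotarev gives a prime `ℓ` outside `S ∪ {bad} ∪ {ℓ ∣ M} ∪ {p}` and a Frobenius `τ` at `ℓ`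
with `τ = τ₀` on `F`.  Then `ψ(a_ℓ₀(g)) = tr ρ(τ₀) = tr ρ(τ) = ψ(a_ℓ(g)) = a_ℓ(W) =
tr(τ | E[p]) = tr(τ₀ | E[p]) = a_ℓ₀(W)` in `K`.
-/

set_option autoImplicit false

open WeierstrassCurve WeierstrassCurve.Affine WeierstrassCurve.Affine.Point
open CuspForm ModularFormClass UpperHalfPlane

namespace Fermat.Agent.Ribet.H163

open Fermat.Agent.Ribet.Spec

/-- The image of a number field in `ℚ̄` is finite-dimensional over `ℚ`. -/
theorem finiteDimensional_fieldRange (F : Type) [Field F] [NumberField F]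
    [Algebra F (AlgebraicClosure ℚ)] [IsScalarTower ℚ F (AlgebraicClosure ℚ)] :
    FiniteDimensional ℚ (IsScalarTower.toAlgHom ℚ F (AlgebraicClosure ℚ)).fieldRange :=
  LinearEquiv.finiteDimensional
    (AlgEquiv.ofInjectiveField (IsScalarTower.toAlgHom ℚ F (AlgebraicClosure ℚ))).toLinearEquiv

/-- A ring homomorphism to a field whose kernel contains a maximal ideal has that ideal as
kernel. -/
theorem ker_eq_of_maximal_le {K : Type} [Field K] (ψ : integralClosure ℤ ℂ →+* K)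
    (𝔪 : Ideal (integralClosure ℤ ℂ)) (h𝔪 : 𝔪.IsMaximal) (hle : 𝔪 ≤ RingHom.ker ψ) :
    RingHom.ker ψ = 𝔪 :=
  (h𝔪.eq_of_le (RingHom.ker_ne_top ψ) hle).symm

/-- An automorphism fixing the image of `F` pointwise restricts to the identity of `F`. -/
theorem restrictNormalHom_eq_one_of_fix (F : Type) [Field F] [NumberField F] [IsGalois ℚ F]
    [Algebra F (AlgebraicClosure ℚ)] [IsScalarTower ℚ F (AlgebraicClosure ℚ)]
    (σ : GQ) (h : ∀ x : F, σ (algebraMap F (AlgebraicClosure ℚ) x) =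
      algebraMap F (AlgebraicClosure ℚ) x) :
    AlgEquiv.restrictNormalHom (F := ℚ) (K₁ := AlgebraicClosure ℚ) F σ = 1 := by
  ext x
  apply (algebraMap F (AlgebraicClosure ℚ)).injective
  have := AlgEquiv.restrictNormal_commutes σ F x
  rw [h] at this
  exact this

/-- The discriminant of the Frey curve. -/
theorem frey_Δ_eq (P : FreyPackage) :
    P.freyCurve.Δ = ((P.a * P.b * P.c : ℤ) : ℚ) ^ (2 * P.p) / 2 ^ 8 := by
  have hc : ((P.c : ℤ) : ℚ) ^ P.p = (P.a : ℚ) ^ P.p + (P.b : ℚ) ^ P.p := by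
    have := congrArg (Int.cast : ℤ → ℚ) P.hFLT
    push_cast at this
    exact this.symm
  simp only [WeierstrassCurve.Δ, WeierstrassCurve.b₂, WeierstrassCurve.b₄, WeierstrassCurve.b₆,
    WeierstrassCurve.b₈, FreyPackage.freyCurve]
  push_cast
  rw [pow_mul', mul_pow, mul_pow, hc]
  ring

theorem frey_Δ_ne_zero (P : FreyPackage) : P.freyCurve.Δ ≠ 0 := by
  rw [frey_Δ_eq]
  have h := P.habc0
  have : ((P.a * P.b * P.c : ℤ) : ℚ) ≠ 0 := by exact_mod_cast h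
  positivity

/-- The Frey curve is an elliptic curve. -/
theorem frey_isElliptic (P : FreyPackage) : P.freyCurve.IsElliptic :=
  ⟨isUnit_iff_ne_zero.mpr (frey_Δ_ne_zero P)⟩

/-- An integral model of an elliptic curve over `ℚ` has nonzero discriminant. -/
theorem Δ_ne_zero_of_isIntegralModelOf {E : WeierstrassCurve ℚ} (hE : E.Δ ≠ 0)
    {W : WeierstrassCurve ℤ} (hW : W.IsIntegralModelOf E) : W.Δ ≠ 0 := by
  obtain ⟨C, hC⟩ := hW
  intro h0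
  have h1 : (W.map (Int.castRingHom ℚ)).Δ = 0 := by
    rw [WeierstrassCurve.map_Δ, h0, _root_.map_zero]
  rw [← hC, WeierstrassCurve.variableChange_Δ] at h1
  rcases mul_eq_zero.mp h1 with h | h
  · exact (pow_ne_zero 12 (Units.ne_zero (C.u⁻¹))) h
  · exact hE h

/-- The finite set of bad primes of an integral Weierstrass curve with `Δ ≠ 0`. -/
theorem not_mem_primeFactors_Δ {W : WeierstrassCurve ℤ} (hΔ : W.Δ ≠ 0) {ℓ : ℕ} (hℓ : ℓ.Prime)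
    (h : ℓ ∉ W.Δ.natAbs.primeFactors) : W.IsGoodPrimeFor ℓ := by
  intro hdvd
  apply h
  rw [Nat.mem_primeFactors]
  refine ⟨hℓ, ?_, Int.natAbs_ne_zero.mpr hΔ⟩
  exact Int.natCast_dvd.mp hdvd

/-- If `τ` and `τ₀` agree on the image of `F`, then every homomorphism whose kernel contains
the kernel of restriction to `F` takes the same value at `τ` and `τ₀`. -/
theorem map_eq_of_agree_on_range (F : Type) [Field F] [NumberField F] [IsGalois ℚ F]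
    [Algebra F (AlgebraicClosure ℚ)] [IsScalarTower ℚ F (AlgebraicClosure ℚ)]
    {H : Type*} [Monoid H] (ρ : GQ →* H)
    (hker : (AlgEquiv.restrictNormalHom (F := ℚ) (K₁ := AlgebraicClosure ℚ) F).ker ≤ ρ.ker)
    (τ τ₀ : GQ)
    (h : ∀ x ∈ (IsScalarTower.toAlgHom ℚ F (AlgebraicClosure ℚ)).fieldRange, τ x = τ₀ x) :
    ρ τ = ρ τ₀ := by
  have h1 : τ₀⁻¹ * τ ∈ (AlgEquiv.restrictNormalHom (F := ℚ) (K₁ := AlgebraicClosure ℚ) F).ker := by
    rw [MonoidHom.mem_ker]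
    apply restrictNormalHom_eq_one_of_fix
    intro x
    have hx : algebraMap F (AlgebraicClosure ℚ) x ∈
        (IsScalarTower.toAlgHom ℚ F (AlgebraicClosure ℚ)).fieldRange := ⟨x, rfl⟩
    rw [AlgEquiv.mul_apply, h _ hx]
    exact τ₀.symm_apply_apply _
  have h2 := MonoidHom.mem_ker.mp (hker h1)
  have h3 : ρ τ = ρ τ₀ * ρ (τ₀⁻¹ * τ) := by
    rw [← map_mul, mul_inv_cancel_left]
  rw [h3, h2, mul_one]

/-- **Core of R3'.**  Congruence at one more good prime. -/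
theorem congr_at_good_of_almostAll
    (hTF : TraceFormulaStatement) (hCheb : Fermat.Agent.Lib.Cheb.Spec.ChebotarevStatement)
    (hPL : PlacesStatement)
    (P : FreyPackage) (M : ℕ) (hM : 0 < M) (hatt : P.EigenformResidualAttachmentAt M)
    (g : CuspForm (CongruenceSubgroup.Gamma0 M) 2) (W : WeierstrassCurve ℤ)
    (𝔪 : Ideal (integralClosure ℤ ℂ)) (S : Finset ℕ)
    (hg : g.IsNormalizedEigenform) (hW : W.IsIntegralModelOf P.freyCurve) (h𝔪 : 𝔪.IsMaximal)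
    (hp : (P.p : integralClosure ℤ ℂ) ∈ 𝔪)
    (hcong : ∀ ℓ : ℕ, ℓ.Prime → ℓ ∉ S →
        ∃ b : integralClosure ℤ ℂ, (b : ℂ) = qCoeff g ℓ ∧
          b - ((W.apOfModel ℓ : ℤ) : integralClosure ℤ ℂ) ∈ 𝔪)
    (ℓ₀ : ℕ) (hℓ₀ : ℓ₀.Prime) (hgood : W.IsGoodPrimeFor ℓ₀) (hℓ₀M : ¬ ℓ₀ ∣ M)
    (hℓ₀p : ℓ₀ ≠ P.p) :
    ∃ a : integralClosure ℤ ℂ, (a : ℂ) = qCoeff g ℓ₀ ∧
        a - ((W.apOfModel ℓ₀ : ℤ) : integralClosure ℤ ℂ) ∈ 𝔪 := by
  have hell := frey_isElliptic P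
  have hΔ : W.Δ ≠ 0 := Δ_ne_zero_of_isIntegralModelOf (frey_Δ_ne_zero P) hW
  obtain ⟨K, _, _, V, _, _, ρ, ψ, F, _, _, _, _, _, hψ, -, hker, htr, -⟩ := hatt g hg 𝔪 h𝔪 hp
  have hkerψ : RingHom.ker ψ = 𝔪 := ker_eq_of_maximal_le ψ 𝔪 h𝔪 hψ
  -- a Frobenius at `ℓ₀`
  obtain ⟨A₀, hA₀, τ₀, hτ₀⟩ := hPL ℓ₀ hℓ₀
  -- Chebotarev: a Frobenius `τ` at a prime `ℓ` outside the exceptional set, equal to `τ₀` on `F`
  obtain ⟨ℓ, A, τ, hℓ, hℓS, hA, hτ, -, hagree⟩ :=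
    hCheb (IsScalarTower.toAlgHom ℚ F (AlgebraicClosure ℚ)).fieldRange
      (finiteDimensional_fieldRange F) τ₀
      (S ∪ W.Δ.natAbs.primeFactors ∪ M.primeFactors ∪ {P.p})
  simp only [Finset.mem_union, Finset.mem_singleton, not_or] at hℓS
  obtain ⟨⟨⟨hℓS', hℓΔ⟩, hℓM'⟩, hℓp⟩ := hℓS
  have hℓgood : W.IsGoodPrimeFor ℓ := not_mem_primeFactors_Δ hΔ hℓ hℓΔ
  have hℓM : ¬ ℓ ∣ M := fun h => hℓM' (Nat.mem_primeFactors.mpr ⟨hℓ, h, hM.ne'⟩)
  -- the two representations agree at `τ` and `τ₀`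
  have hρ : ρ τ = ρ τ₀ :=
    map_eq_of_agree_on_range F ρ (hker.trans inf_le_right) τ τ₀ hagree
  have hE : galoisRepModuleEnd (S := ℚ) (K := AlgebraicClosure ℚ) P.freyCurve P.p τ =
      galoisRepModuleEnd (S := ℚ) (K := AlgebraicClosure ℚ) P.freyCurve P.p τ₀ :=
    map_eq_of_agree_on_range F _ (hker.trans inf_le_left) τ τ₀ hagree
  -- traces on `E[p]`
  have hT : galoisTrace (S := ℚ) (K := AlgebraicClosure ℚ) P.freyCurve P.p τ =
      ((W.apOfModel ℓ : ℤ) : ZMod P.p) :=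
    hTF P.freyCurve W hW P.p ℓ P.pp hℓ hℓp hℓgood A hA τ hτ
  have hT₀ : galoisTrace (S := ℚ) (K := AlgebraicClosure ℚ) P.freyCurve P.p τ₀ =
      ((W.apOfModel ℓ₀ : ℤ) : ZMod P.p) :=
    hTF P.freyCurve W hW P.p ℓ₀ P.pp hℓ₀ hℓ₀p hgood A₀ hA₀ τ₀ hτ₀
  have hTT : galoisTrace (S := ℚ) (K := AlgebraicClosure ℚ) P.freyCurve P.p τ =
      galoisTrace (S := ℚ) (K := AlgebraicClosure ℚ) P.freyCurve P.p τ₀ := by
    rw [galoisTrace_def, galoisTrace_def, hE]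
  have hap : ((W.apOfModel ℓ : ℤ) : ZMod P.p) = ((W.apOfModel ℓ₀ : ℤ) : ZMod P.p) := by
    rw [← hT, ← hT₀, hTT]
  have hapK : ((W.apOfModel ℓ : ℤ) : K) = ((W.apOfModel ℓ₀ : ℤ) : K) := by
    have := congrArg (algebraMap (ZMod P.p) K) hap
    simpa using this
  -- traces of `ρ`
  obtain ⟨a₀, ha₀, htr₀⟩ := htr ℓ₀ hℓ₀ hℓ₀M hℓ₀p A₀ hA₀ τ₀ hτ₀
  obtain ⟨a₁, ha₁, htr₁⟩ := htr ℓ hℓ hℓM hℓp A hA τ hτ
  obtain ⟨b, hb, hbm⟩ := hcong ℓ hℓ hℓS'
  have hab : a₁ = b := Subtype.ext (ha₁.trans hb.symm)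
  have hψb : ψ b = ((W.apOfModel ℓ : ℤ) : K) := by
    have h0 : ψ (b - ((W.apOfModel ℓ : ℤ) : integralClosure ℤ ℂ)) = 0 :=
      RingHom.mem_ker.mp (hψ hbm)
    rw [map_sub, map_intCast, sub_eq_zero] at h0
    exact h0
  refine ⟨a₀, ha₀, ?_⟩
  rw [← hkerψ, RingHom.mem_ker, map_sub, map_intCast, sub_eq_zero, ← htr₀, ← hρ, htr₁, hab, hψb,
    hapK]

/-- **(R3'), conditional form.** -/
theorem almostAllToWitness_of (hS42 : S42Statement) (hTF : TraceFormulaStatement)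
    (hCheb : Fermat.Agent.Lib.Cheb.Spec.ChebotarevStatement) (hPL : PlacesStatement) :
    AlmostAllToWitnessStatement := by
  intro P M hM g W 𝔪 S hg hW h𝔪 hp hcong
  refine ⟨hg, hW, h𝔪, hp, ?_⟩
  intro ℓ₀ hℓ₀ hgood hℓ₀M hℓ₀p
  exact congr_at_good_of_almostAll hTF hCheb hPL P M hM (hS42 P M hM) g W 𝔪 S hg hW h𝔪 hp hcong
    ℓ₀ hℓ₀ hgood hℓ₀M hℓ₀p

/-- Two integral models of the same elliptic curve have congruent `a_ℓ` modulo `n` at every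
common good prime `ℓ ≠ n` (both are the trace of a Frobenius on `E[n]`). -/
theorem apOfModel_congr_of_models (hTF : TraceFormulaStatement) (hPL : PlacesStatement)
    (E : WeierstrassCurve ℚ) [E.IsElliptic] (W₀ W : WeierstrassCurve ℤ)
    (hW₀ : W₀.IsIntegralModelOf E) (hW : W.IsIntegralModelOf E) (n ℓ : ℕ) (hn : n.Prime)
    (hℓ : ℓ.Prime) (hℓn : ℓ ≠ n) (hg₀ : W₀.IsGoodPrimeFor ℓ) (hg : W.IsGoodPrimeFor ℓ) :
    (n : ℤ) ∣ W₀.apOfModel ℓ - W.apOfModel ℓ := by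
  obtain ⟨A, hA, τ, hτ⟩ := hPL ℓ hℓ
  have h₀ := hTF E W₀ hW₀ n ℓ hn hℓ hℓn hg₀ A hA τ hτ
  have h₁ := hTF E W hW n ℓ hn hℓ hℓn hg A hA τ hτ
  have h : ((W₀.apOfModel ℓ : ℤ) : ZMod n) = ((W.apOfModel ℓ : ℤ) : ZMod n) := by
    rw [← h₀, ← h₁]
  have h' : ((W₀.apOfModel ℓ - W.apOfModel ℓ : ℤ) : ZMod n) = 0 := by
    rw [Int.cast_sub, h, sub_self]
  exact (ZMod.intCast_zmod_eq_zero_iff_dvd _ n).mp h'

/-- **(G2), conditional form.** -/
theorem modelTransport_of (hS42 : S42Statement) (hTF : TraceFormulaStatement)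
    (hCheb : Fermat.Agent.Lib.Cheb.Spec.ChebotarevStatement) (hPL : PlacesStatement) :
    ModelTransportStatement := by
  intro P N hN hmod W hW
  obtain ⟨f, W₀, 𝔪, hf, hW₀, h𝔪, hp, hc⟩ := hmod
  have hell := frey_isElliptic P
  have hΔ : W.Δ ≠ 0 := Δ_ne_zero_of_isIntegralModelOf (frey_Δ_ne_zero P) hW
  have hΔ₀ : W₀.Δ ≠ 0 := Δ_ne_zero_of_isIntegralModelOf (frey_Δ_ne_zero P) hW₀
  have hwit : P.IsCongruentWitness N f W 𝔪 := by
    refine almostAllToWitness_of hS42 hTF hCheb hPL P N hN f W 𝔪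
      (W₀.Δ.natAbs.primeFactors ∪ W.Δ.natAbs.primeFactors ∪ N.primeFactors ∪ {P.p})
      hf hW h𝔪 hp ?_
    intro ℓ hℓ hℓS
    simp only [Finset.mem_union, Finset.mem_singleton, not_or] at hℓS
    obtain ⟨⟨⟨hℓΔ₀, hℓΔ⟩, hℓN'⟩, hℓp⟩ := hℓS
    have hg₀ : W₀.IsGoodPrimeFor ℓ := not_mem_primeFactors_Δ hΔ₀ hℓ hℓΔ₀
    have hg : W.IsGoodPrimeFor ℓ := not_mem_primeFactors_Δ hΔ hℓ hℓΔ
    have hℓN : ¬ ℓ ∣ N := fun h => hℓN' (Nat.mem_primeFactors.mpr ⟨hℓ, h, hN.ne'⟩)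
    obtain ⟨a, ha, ham⟩ := hc ℓ hℓ hg₀ hℓN hℓp
    refine ⟨a, ha, ?_⟩
    obtain ⟨k, hk⟩ := apOfModel_congr_of_models hTF hPL P.freyCurve W₀ W hW₀ hW P.p ℓ P.pp hℓ hℓp
      hg₀ hg
    have h1 : ((W₀.apOfModel ℓ : ℤ) : integralClosure ℤ ℂ) -
        ((W.apOfModel ℓ : ℤ) : integralClosure ℤ ℂ) ∈ 𝔪 := by
      rw [← Int.cast_sub, hk]
      push_cast
      exact 𝔪.mul_mem_right _ hp
    have h2 := 𝔪.add_mem ham h1
    have e : a - ((W₀.apOfModel ℓ : ℤ) : integralClosure ℤ ℂ) +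
        (((W₀.apOfModel ℓ : ℤ) : integralClosure ℤ ℂ) -
          ((W.apOfModel ℓ : ℤ) : integralClosure ℤ ℂ)) =
        a - ((W.apOfModel ℓ : ℤ) : integralClosure ℤ ℂ) := by ring
    rw [e] at h2
    exact h2
  obtain ⟨-, -, -, -, hc'⟩ := hwit
  exact ⟨f, 𝔪, hf, h𝔪, hp, hc'⟩

end Fermat.Agent.Ribet.H163
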