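import Fermat.Agent.Ribet.H163.AlmostAll
import Fermat.Agent.Lib.Cheb.Chebotarev
import Fermat.Agent.S54.FrobExists

/-!
# Row RIBET, pieces PL, R3' and G2 (helper163): final forms

Discharges the Chebotarev and Frobenius-existence hypotheses of `AlmostAll.lean` by the
unconditional results on main:

* `places : Spec.PlacesStatement` (PL), from `Fermat.Agent.S54.exists_frobenius`;
* `almostAllToWitness_of_S42_TF : S42Statement → TraceFormulaStatement →
    Spec.AlmostAllToWitnessStatement` (R3');
* `modelTransport_of_S42_TF : S42Statement → TraceFormulaStatement →
    Spec.ModelTransportStatement` (G2).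

The only remaining inputs are frozen S42 and the trace formula TF.
-/

set_option autoImplicit false

namespace Fermat.Agent.Ribet.H163

open Fermat.Agent.Ribet.Spec

/-- **(PL)** Places over every prime and Frobenius elements at them exist. -/
theorem places : PlacesStatement := by
  intro q hq
  obtain ⟨A, σ, hA, hσ⟩ := Fermat.Agent.S54.exists_frobenius q hq
  exact ⟨A, hA, σ, hσ⟩

/-- **(R3')** from frozen S42 and the trace formula. -/
theorem almostAllToWitness_of_S42_TF (hS42 : S42Statement) (hTF : TraceFormulaStatement) :
    AlmostAllToWitnessStatement :=
  almostAllToWitness_of hS42 hTF Fermat.Agent.Lib.Cheb.chebotarev places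

/-- **(G2)** from frozen S42 and the trace formula. -/
theorem modelTransport_of_S42_TF (hS42 : S42Statement) (hTF : TraceFormulaStatement) :
    ModelTransportStatement :=
  modelTransport_of hS42 hTF Fermat.Agent.Lib.Cheb.chebotarev places

end Fermat.Agent.Ribet.H163
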