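import Fermat.Agent.Ribet.H163.Final
import Fermat.Agent.Ribet.Spec2

/-!
# Row RIBET, pieces R3' and G2 from the FREY form of the trace formula (helper163)

Same proofs as `AlmostAll.lean`, but the trace formula is only used for the Frey curve and
`n = p`, i.e. in the form `Spec.TraceFormulaFreyStatement` of `Ribet/Spec2.lean`:

* `almostAllToWitness_of_frey : S42Statement → TraceFormulaFreyStatement →
    AlmostAllToWitnessStatement`   (R3')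
* `modelTransport_of_frey : S42Statement → TraceFormulaFreyStatement →
    ModelTransportStatement`   (G2)
* `isCongruentWitness_transport_frey` : change of the integral model in a congruence witness.

Chebotarev (`Fermat.Agent.Lib.Cheb.chebotarev`) and the existence of Frobenius elements
(`H163.places`) are discharged from main.
-/

set_option autoImplicit false

open WeierstrassCurve WeierstrassCurve.Affine WeierstrassCurve.Affine.Point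
open CuspForm ModularFormClass UpperHalfPlane

namespace Fermat.Agent.Ribet.H163

open Fermat.Agent.Ribet.Spec

/-- **Core.**  Let `g` be a normalised eigenform of level `M`, `𝔪 ∣ p`, and `W₀`, `W` two integral
models of the Frey curve.  If `a_ℓ(g) ≡ a_ℓ(W₀) mod 𝔪` for all primes `ℓ ∉ S` of good reduction
of `W₀`, then `a_ℓ₀(g) ≡ a_ℓ₀(W) mod 𝔪` for every prime `ℓ₀ ∤ M p` of good reduction of `W`. -/
theorem congr_transport_frey (hS42 : S42Statement) (hTF : TraceFormulaFreyStatement)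
    (P : FreyPackage) (M : ℕ) (hM : 0 < M)
    (g : CuspForm (CongruenceSubgroup.Gamma0 M) 2) (W₀ W : WeierstrassCurve ℤ)
    (𝔪 : Ideal (integralClosure ℤ ℂ)) (S : Finset ℕ)
    (hg : g.IsNormalizedEigenform) (hW₀ : W₀.IsIntegralModelOf P.freyCurve)
    (hW : W.IsIntegralModelOf P.freyCurve) (h𝔪 : 𝔪.IsMaximal)
    (hp : (P.p : integralClosure ℤ ℂ) ∈ 𝔪)
    (hcong : ∀ ℓ : ℕ, ℓ.Prime → ℓ ∉ S → W₀.IsGoodPrimeFor ℓ →
        ∃ b : integralClosure ℤ ℂ, (b : ℂ) = qCoeff g ℓ ∧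
          b - ((W₀.apOfModel ℓ : ℤ) : integralClosure ℤ ℂ) ∈ 𝔪)
    (ℓ₀ : ℕ) (hℓ₀ : ℓ₀.Prime) (hgood : W.IsGoodPrimeFor ℓ₀) (hℓ₀M : ¬ ℓ₀ ∣ M)
    (hℓ₀p : ℓ₀ ≠ P.p) :
    ∃ a : integralClosure ℤ ℂ, (a : ℂ) = qCoeff g ℓ₀ ∧
        a - ((W.apOfModel ℓ₀ : ℤ) : integralClosure ℤ ℂ) ∈ 𝔪 := by
  have hΔ₀ : W₀.Δ ≠ 0 := Δ_ne_zero_of_isIntegralModelOf (frey_Δ_ne_zero P) hW₀
  obtain ⟨K, _, _, V, _, _, ρ, ψ, F, _, _, _, _, _, hψ, -, hker, htr, -⟩ :=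
    hS42 P M hM g hg 𝔪 h𝔪 hp
  have hkerψ : RingHom.ker ψ = 𝔪 := ker_eq_of_maximal_le ψ 𝔪 h𝔪 hψ
  -- a Frobenius at `ℓ₀`
  obtain ⟨A₀, hA₀, τ₀, hτ₀⟩ := places ℓ₀ hℓ₀
  -- Chebotarev: a Frobenius `τ` at a prime `ℓ` outside the exceptional set, equal to `τ₀` on `F`
  obtain ⟨ℓ, A, τ, hℓ, hℓS, hA, hτ, -, hagree⟩ :=
    Fermat.Agent.Lib.Cheb.chebotarev (IsScalarTower.toAlgHom ℚ F (AlgebraicClosure ℚ)).fieldRange
      (finiteDimensional_fieldRange F) τ₀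
      (S ∪ W₀.Δ.natAbs.primeFactors ∪ M.primeFactors ∪ {P.p})
  simp only [Finset.mem_union, Finset.mem_singleton, not_or] at hℓS
  obtain ⟨⟨⟨hℓS', hℓΔ⟩, hℓM'⟩, hℓp⟩ := hℓS
  have hℓgood : W₀.IsGoodPrimeFor ℓ := not_mem_primeFactors_Δ hΔ₀ hℓ hℓΔ
  have hℓM : ¬ ℓ ∣ M := fun h => hℓM' (Nat.mem_primeFactors.mpr ⟨hℓ, h, hM.ne'⟩)
  -- the two representations agree at `τ` and `τ₀`
  have hρ : ρ τ = ρ τ₀ :=
    map_eq_of_agree_on_range F ρ (hker.trans inf_le_right) τ τ₀ hagree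
  have hE : galoisRepModuleEnd (S := ℚ) (K := AlgebraicClosure ℚ) P.freyCurve P.p τ =
      galoisRepModuleEnd (S := ℚ) (K := AlgebraicClosure ℚ) P.freyCurve P.p τ₀ :=
    map_eq_of_agree_on_range F _ (hker.trans inf_le_left) τ τ₀ hagree
  -- traces on `E[p]`
  have hT : galoisTrace (S := ℚ) (K := AlgebraicClosure ℚ) P.freyCurve P.p τ =
      ((W₀.apOfModel ℓ : ℤ) : ZMod P.p) :=
    hTF P W₀ hW₀ ℓ hℓ hℓp hℓgood A hA τ hτ
  have hT₀ : galoisTrace (S := ℚ) (K := AlgebraicClosure ℚ) P.freyCurve P.p τ₀ =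
      ((W.apOfModel ℓ₀ : ℤ) : ZMod P.p) :=
    hTF P W hW ℓ₀ hℓ₀ hℓ₀p hgood A₀ hA₀ τ₀ hτ₀
  have hTT : galoisTrace (S := ℚ) (K := AlgebraicClosure ℚ) P.freyCurve P.p τ =
      galoisTrace (S := ℚ) (K := AlgebraicClosure ℚ) P.freyCurve P.p τ₀ := by
    rw [galoisTrace_def, galoisTrace_def, hE]
  have hap : ((W₀.apOfModel ℓ : ℤ) : ZMod P.p) = ((W.apOfModel ℓ₀ : ℤ) : ZMod P.p) := by
    rw [← hT, ← hT₀, hTT]
  have hapK : ((W₀.apOfModel ℓ : ℤ) : K) = ((W.apOfModel ℓ₀ : ℤ) : K) := by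
    have := congrArg (algebraMap (ZMod P.p) K) hap
    simpa using this
  -- traces of `ρ`
  obtain ⟨a₀, ha₀, htr₀⟩ := htr ℓ₀ hℓ₀ hℓ₀M hℓ₀p A₀ hA₀ τ₀ hτ₀
  obtain ⟨a₁, ha₁, htr₁⟩ := htr ℓ hℓ hℓM hℓp A hA τ hτ
  obtain ⟨b, hb, hbm⟩ := hcong ℓ hℓ hℓS' hℓgood
  have hab : a₁ = b := Subtype.ext (ha₁.trans hb.symm)
  have hψb : ψ b = ((W₀.apOfModel ℓ : ℤ) : K) := by
    have h0 : ψ (b - ((W₀.apOfModel ℓ : ℤ) : integralClosure ℤ ℂ)) = 0 :=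
      RingHom.mem_ker.mp (hψ hbm)
    rw [map_sub, map_intCast, sub_eq_zero] at h0
    exact h0
  refine ⟨a₀, ha₀, ?_⟩
  rw [← hkerψ, RingHom.mem_ker, map_sub, map_intCast, sub_eq_zero, ← htr₀, ← hρ, htr₁, hab, hψb,
    hapK]

/-- **(R3')** from frozen S42 and the Frey form of the trace formula. -/
theorem almostAllToWitness_of_frey (hS42 : S42Statement) (hTF : TraceFormulaFreyStatement) :
    AlmostAllToWitnessStatement := by
  intro P M hM g W 𝔪 S hg hW h𝔪 hp hcong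
  refine ⟨hg, hW, h𝔪, hp, ?_⟩
  intro ℓ₀ hℓ₀ hgood hℓ₀M hℓ₀p
  exact congr_transport_frey hS42 hTF P M hM g W W 𝔪 S hg hW hW h𝔪 hp
    (fun ℓ hℓ hℓS _ => hcong ℓ hℓ hℓS) ℓ₀ hℓ₀ hgood hℓ₀M hℓ₀p

/-- Change of the integral model in a congruence witness. -/
theorem isCongruentWitness_transport_frey (hS42 : S42Statement)
    (hTF : TraceFormulaFreyStatement) (P : FreyPackage) (N : ℕ) (hN : 0 < N)
    (f : CuspForm (CongruenceSubgroup.Gamma0 N) 2) (W₀ W : WeierstrassCurve ℤ)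
    (𝔪 : Ideal (integralClosure ℤ ℂ)) (h : P.IsCongruentWitness N f W₀ 𝔪)
    (hW : W.IsIntegralModelOf P.freyCurve) : P.IsCongruentWitness N f W 𝔪 := by
  obtain ⟨hf, hW₀, h𝔪, hp, hc⟩ := h
  refine ⟨hf, hW, h𝔪, hp, ?_⟩
  intro ℓ₀ hℓ₀ hgood hℓ₀N hℓ₀p
  refine congr_transport_frey hS42 hTF P N hN f W₀ W 𝔪 (N.primeFactors ∪ {P.p}) hf hW₀ hW h𝔪 hp
    ?_ ℓ₀ hℓ₀ hgood hℓ₀N hℓ₀p
  intro ℓ hℓ hℓS hℓgood
  simp only [Finset.mem_union, Finset.mem_singleton, not_or] at hℓS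
  exact hc ℓ hℓ hℓgood (fun h => hℓS.1 (Nat.mem_primeFactors.mpr ⟨hℓ, h, hN.ne'⟩)) hℓS.2

/-- **(G2)** from frozen S42 and the Frey form of the trace formula. -/
theorem modelTransport_of_frey (hS42 : S42Statement) (hTF : TraceFormulaFreyStatement) :
    ModelTransportStatement := by
  intro P N hN hmod W hW
  obtain ⟨f, W₀, 𝔪, hwit⟩ := hmod
  obtain ⟨hf, -, h𝔪, hp, hc⟩ :=
    isCongruentWitness_transport_frey hS42 hTF P N hN f W₀ W 𝔪 hwit hW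
  exact ⟨f, 𝔪, hf, h𝔪, hp, hc⟩

end Fermat.Agent.Ribet.H163
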