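import Fermat.Agent.Ribet.H163.Frey
import Fermat.Agent.Ribet.H52.TraceFormula
import Fermat.Agent.Lib.Frob.Small.All
import Fermat.Agent.Ribet.H343.DetFrob

/-!
# Row RIBET: TF-Frey unconditionally, and R3' / G2 from frozen S42 alone (helper163)

* `traceFormulaFrey : Spec.TraceFormulaFreyStatement` — unconditional, assembled from
  `H52.traceFormulaFrey_of_h52` (Cayley–Hamilton glue), `Lib.Frob.Small.frobRelationAll`
  (Frobenius relation at every good prime) and `H343.detFrob` (`det Frob_q = q` on `E[p]`).
* `almostAllToWitness_of_S42 : S42Statement → Spec.AlmostAllToWitnessStatement`   (R3')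
* `modelTransport_of_S42 : S42Statement → Spec.ModelTransportStatement`   (G2)
* `isCongruentWitness_transport_of_S42` : change of the integral model in a congruence witness.
-/

set_option autoImplicit false

open WeierstrassCurve WeierstrassCurve.Affine WeierstrassCurve.Affine.Point
open CuspForm ModularFormClass UpperHalfPlane

namespace Fermat.Agent.Ribet.H163

open Fermat.Agent.Ribet.Spec

/-- **(TF-Frey)** The trace formula for the Frey curve, unconditionally. -/
theorem traceFormulaFrey : TraceFormulaFreyStatement :=
  Fermat.Agent.Ribet.H52.traceFormulaFrey_of_h52 Fermat.Agent.Lib.Frob.Small.frobRelationAll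
    Fermat.Agent.Ribet.H343.detFrob

/-- **(R3')** from frozen S42 alone. -/
theorem almostAllToWitness_of_S42 (hS42 : S42Statement) : AlmostAllToWitnessStatement :=
  almostAllToWitness_of_frey hS42 traceFormulaFrey

/-- **(G2)** from frozen S42 alone. -/
theorem modelTransport_of_S42 (hS42 : S42Statement) : ModelTransportStatement :=
  modelTransport_of_frey hS42 traceFormulaFrey

/-- Change of the integral model in a congruence witness, from frozen S42 alone. -/
theorem isCongruentWitness_transport_of_S42 (hS42 : S42Statement)
    (P : FreyPackage) (N : ℕ) (hN : 0 < N)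
    (f : CuspForm (CongruenceSubgroup.Gamma0 N) 2) (W₀ W : WeierstrassCurve ℤ)
    (𝔪 : Ideal (integralClosure ℤ ℂ)) (h : P.IsCongruentWitness N f W₀ 𝔪)
    (hW : W.IsIntegralModelOf P.freyCurve) : P.IsCongruentWitness N f W 𝔪 :=
  isCongruentWitness_transport_frey hS42 traceFormulaFrey P N hN f W₀ W 𝔪 h hW

end Fermat.Agent.Ribet.H163
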